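import Fermat.Agent.BAD.AtP.Level.Form
import Fermat.Agent.BAD.TwoP.Rational

/-!
# `q`-th powers of Kummer elements of level `M`

Their multiplicities are divisible by `q` at the finite points and at the cusps over `∞`, after
any translation by `Γ₀(q)`, the Atkin operator and its inverse.
-/

set_option autoImplicit false

open UpperHalfPlane CongruenceSubgroup
open scoped MatrixGroups Manifold

noncomputable section

namespace FermatAgent.BAD.AtP

open FermatAgent.BAD.TwoP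
open FermatAgent.ES (BSub act lexp HasLExp hasLExp_lexp zetaC AuxLevel IsTwist IsParChar auxW
  vanishOrd)

variable {q M : ℕ} [hq : Fact q.Prime] [NeZero M] {O : Subring ℂ}

/-- A `q`-th root on the curve of level `M`: expansions everywhere, unramified at the cusps
over `∞`. -/
structure IsRootM (q M : ℕ) (h : ℍ → ℂ) : Prop where
  exp : ∀ γ : SL(2, ℤ), ∃ s, HasLExp (q * M) (act γ h) s
  per : ∀ γ ∈ Gamma0 q, act (γ * ModularGroup.T ^ M) h = act γ h

omit hq [NeZero M] in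
/-- Translates of roots by `Γ₀(q)` are roots. -/
theorem IsRootM.act {h : ℍ → ℂ} (hh : IsRootM q M h) {g : SL(2, ℤ)} (hg : g ∈ Gamma0 q) :
    IsRootM q M (ES.act g h) where
  exp γ := by
    rw [← ES.act_mul]
    exact hh.exp _
  per γ hγ := by
    rw [← ES.act_mul, ← ES.act_mul, ← mul_assoc]
    exact hh.per _ (mul_mem hg hγ)

/-- Roots are holomorphic. -/
theorem IsRootM.mdiff {h : ℍ → ℂ} (hh : IsRootM q M h) : MDiff h := by
  obtain ⟨s, hs⟩ := hh.exp 1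
  rw [ES.act_one] at hs
  exact hs.mdifferentiable

theorem IsRootM.mdiff_atkin (hM : M.Coprime q) {h : ℍ → ℂ} (hh : IsRootM q M h) :
    MDiff (atkin hM h) := by
  obtain ⟨t, ht⟩ := exists_expandL_atkin hM hh.exp (one_mem (Gamma0 q))
  rw [ES.act_one] at ht
  exact ht.mdifferentiable

/-- The conditions on a function to be divisible by `q` at finite points and over `∞`. -/
def DvdMult (y : LRing q M O) : Prop :=
  (∀ (τ : ℍ) (j : ℕ), vanishOrd (y : ℍ → ℂ) τ = j → q ∣ j) ∧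
    ∀ (γ : SL(2, ℤ)) (hγ : γ ∈ Gamma0 q), (q : ℤ) ∣ (infSer γ hγ y).order

theorem IsRootM.dvdMult {h : ℍ → ℂ} (hh : IsRootM q M h) {y : LRing q M O}
    (hy : (y : ℍ → ℂ) = h ^ q) : DvdMult y := by
  refine ⟨fun τ j hj => dvd_vanishOrd_pow hh.mdiff τ j (hy ▸ hj), fun γ hγ => ?_⟩
  obtain ⟨s, hs⟩ := hh.exp γ
  obtain ⟨t, ht⟩ := exists_expandL_of_periodic hs (by rw [← ES.act_mul, hh.per γ hγ])
  exact dvd_infSer_order hy hγ ht

variable (hM : M.Coprime q) (hζ : zetaC (q * M) ∈ O)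

theorem IsRootM.dvdMult_atkin {h : ℍ → ℂ} (hh : IsRootM q M h) {y : LRing q M O}
    (hy : (y : ℍ → ℂ) = h ^ q) : DvdMult (atkinEquiv hM hζ y) := by
  have hy' : (atkinEquiv hM hζ y : ℍ → ℂ) = atkin hM h ^ q := by
    rw [coe_atkinEquiv, hy, map_pow]
  refine ⟨fun τ j hj => dvd_vanishOrd_pow (hh.mdiff_atkin hM) τ j (hy' ▸ hj), fun γ hγ => ?_⟩
  obtain ⟨t, ht⟩ := exists_expandL_atkin hM hh.exp hγ
  exact dvd_infSer_order hy' hγ ht

theorem IsRootM.dvdMult_symm {h : ℍ → ℂ} (hh : IsRootM q M h) {y : LRing q M O}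
    (hy : (y : ℍ → ℂ) = h ^ q) : DvdMult ((atkinEquiv hM hζ).symm y) := by
  obtain ⟨δ, hδ, hsq⟩ := exists_atkin_sq (q := q) hM
  set y' : LRing q M O := ⟨_, act_mem_LRing y.2 (inv_mem hδ)⟩
  have hy' : (y' : ℍ → ℂ) = ES.act δ⁻¹ h ^ q := by
    show ES.act δ⁻¹ (y : ℍ → ℂ) = _
    rw [hy]
    funext τ
    simp [ES.act_apply]
  have e : (atkinEquiv hM hζ).symm y = atkinEquiv hM hζ y' := by
    refine (atkinEquiv hM hζ).symm_apply_eq.mpr (Subtype.ext ?_)
    rw [coe_atkinEquiv, coe_atkinEquiv, hsq]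
    show (y : ℍ → ℂ) = ES.act δ (ES.act δ⁻¹ (y : ℍ → ℂ))
    rw [← ES.act_mul, inv_mul_cancel, ES.act_one]
  rw [e]
  exact (hh.act (inv_mem hδ)).dvdMult_atkin hM hζ hy'

variable (haux : AuxLevel M 2)

include hM haux in
/-- A form of level `L q` divided by the weight, times an invariant function, is a root. -/
theorem isRootM_form {L : ℕ} (hLM : L ∣ M) {χ : Gamma0 (L * q) →* ℂˣ}
    (hχ : IsParChar (Gamma0 (L * q)) χ) {v : ℍ → ℂ}
    (hv : IsTwist (Gamma0 (L * q)) ((2 * 2 : ℕ) : ℤ) χ v) {s : ℍ → ℂ} (hs : s ∈ LSub q M) :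
    IsRootM q M (s * fun τ => v τ / auxW haux τ ^ 2) := by
  have hle : lam q M ≤ Gamma0 (L * q) := lam_le_gamma0M hM hLM
  refine ⟨fun γ => ?_, fun γ hγ => ?_⟩
  · have h := ES.hasLExp_form_div (auxLevel_level (q := q) haux) (j := 2)
      (ES.hasExp_slash_twist (M := q * M) (gamma_qM_le.trans hle) hχ hv γ)
    rw [auxW_level haux] at h
    exact ⟨_, by rw [ES.act_mulFun]; exact (hasLExp_lexp hs.1 γ).mul h⟩
  have hT : ModularGroup.T ^ M ∈ lam q M := by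
    refine Subgroup.mem_inf.mpr ⟨Gamma0_mem.mpr ?_, Gamma_mem.mpr ?_⟩ <;>
      rw [ES.T_pow_coe] <;> simp
  have hc := lam_normalised hγ hT
  have hmem := hle hc
  have hone : χ ⟨_, hmem⟩ = 1 := hχ _ (by
    show ((γ * ModularGroup.T ^ M * γ⁻¹ : SL(2, ℤ)) : Matrix (Fin 2) (Fin 2) ℤ).trace ^ 2 = 4
    rw [Matrix.SpecialLinearGroup.coe_mul, Matrix.trace_mul_comm,
      ← Matrix.SpecialLinearGroup.coe_mul, inv_mul_cancel_left, ES.T_pow_coe]
    simp [Matrix.trace_fin_two])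
  rw [show γ * ModularGroup.T ^ M = γ * ModularGroup.T ^ M * γ⁻¹ * γ by group, ES.act_mul,
    ES.act_mulFun, hs.2 _ hc,
    act_div_auxW haux hv hmem (ES.gamma_le_of_dvd haux.dvd hc.2), hone]
  simp

include hM haux in
/-- **The Kummer lemma.** -/
theorem kummer_dvdM {L : ℕ} (hLM : L ∣ M) {χ : Gamma0 (L * q) →* ℂˣ}
    (hχ : IsParChar (Gamma0 (L * q)) χ) {v : ℍ → ℂ}
    (hv : IsTwist (Gamma0 (L * q)) ((2 * 2 : ℕ) : ℤ) χ v) {s : ℍ → ℂ} (hs : s ∈ LSub q M)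
    {g : SL(2, ℤ)} (hg : g ∈ Gamma0 q) {y : LRing q M O}
    (hy : (y : ℍ → ℂ) = ES.act g ((s * fun τ => v τ / auxW haux τ ^ 2) ^ q)) :
    DvdMult y ∧ DvdMult (atkinEquiv hM hζ y) ∧ DvdMult ((atkinEquiv hM hζ).symm y) := by
  have hr := (isRootM_form hM haux hLM hχ hv hs).act hg
  have hy' : (y : ℍ → ℂ) = ES.act g (s * fun τ => v τ / auxW haux τ ^ 2) ^ q := by
    rw [hy]
    funext τ
    simp [ES.act_apply]
  exact ⟨hr.dvdMult hy', hr.dvdMult_atkin hM hζ hy', hr.dvdMult_symm hM hζ hy'⟩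

end FermatAgent.BAD.AtP
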