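import Fermat.Agent.BAD.AtP.Level.Good
import Fermat.Agent.BAD.TwoP.Descent
import Fermat.Agent.BAD.DivisibleWitness

/-!
# Descent of divisibility witnesses at level `M`

A function over a coefficient ring whose zeros have orders divisible by `k` has divisibility
witnesses over that ring, by averaging over conjugates.
-/

set_option autoImplicit false

open UpperHalfPlane CongruenceSubgroup IsLocalRing
open scoped MatrixGroups

noncomputable section

namespace FermatAgent.BAD.AtP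

open FermatAgent.BAD.TwoP
open FermatAgent.ES (BSub BRing act lexp lexp_eq zetaC AuxLevel CPlace GoodRoot GoodPoint GalRel
  GalGrp mapSer haupt hauptSub vanishOrd padicSubring)
open CFT.Local (unramRoot botF Gal' res Res')

variable {q M : ℕ} [hq : Fact q.Prime] [NeZero M] (Φ : ℂ ≃+* PadicAlgCl q)

variable {n : ℕ} [NeZero n]

variable (haux : AuxLevel M 2) (hM : M.Coprime q) (hn : M ∣ q ^ n - 1)

include hM hn in
/-- The automorphisms fixing the coefficient field fix the root of unity of level `q M`. -/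
theorem conjC_zetaM {s : Gal' q} (hs : FixK Φ n s) :
    conjC Φ s (zetaC (q * M)) = zetaC (q * M) ^ 1 := by
  rw [pow_one]
  refine Φ.injective ?_
  rw [map_conjC]
  exact hs _ (lField_le_kField n (zetaC_mem_oRingM Φ hM hn).2.2)

/-- Conjugation of the coefficients by an automorphism fixing the coefficient field. -/
def conjKM {s : Gal' q} (hs : FixK Φ n s) : BSub (q * M) →+* BSub (q * M) :=
  ES.conjHom (auxLevel_level haux) (a := 1) (by rw [Nat.cast_one]; exact isUnit_one)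
    (conjC_zetaM Φ hM hn hs)

/-- The expansions of the conjugate are the conjugate expansions. -/
theorem lexp_conjKM {s : Gal' q} (hs : FixK Φ n s) (f : BSub (q * M)) (γ : SL(2, ℤ)) :
    lexp (q * M) γ (conjKM Φ haux hM hn hs f : ℍ → ℂ) =
      mapSer (conjC Φ s : ℂ →+* ℂ) (lexp (q * M) γ (f : ℍ → ℂ)) :=
  ES.lexp_conjHom _ _ _ f (by simp [GalRel, Matrix.one_fin_two.symm])

/-- A function with fixed coefficients at `∞` is fixed by conjugation. -/
theorem conjK_eq_selfM {s : Gal' q} (hs : FixK Φ n s) {f : BSub (q * M)}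
    (h : ∀ i, s (Φ ((lexp (q * M) 1 (f : ℍ → ℂ)).coeff i)) =
      Φ ((lexp (q * M) 1 (f : ℍ → ℂ)).coeff i)) :
    conjKM Φ haux hM hn hs f = f := by
  refine Subtype.ext (ES.lexp_injective (SetLike.coe_mem _) f.2 (γ := 1) ?_)
  rw [lexp_conjKM]
  ext i
  rw [ES.coeff_mapSer]
  exact Φ.injective (by rw [RingEquiv.coe_toRingHom, map_conjC, h])

/-- Functions over the coefficient ring are fixed by conjugation. -/
theorem conjK_eq_self_of_memM {s : Gal' q} (hs : FixK Φ n s) {f : BSub (q * M)}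
    (h : (f : ℍ → ℂ) ∈ BRing (q * M) (oRing Φ n)) : conjKM Φ haux hM hn hs f = f :=
  conjK_eq_selfM Φ haux hM hn hs fun i => hs _ ((mem_oRing Φ).mp (h.2 1 i)).1

theorem conjK_mem_LSubM {s : Gal' q} (hs : FixK Φ n s) {f : BSub (q * M)}
    (h : (f : ℍ → ℂ) ∈ LSub q M) : (conjKM Φ haux hM hn hs f : ℍ → ℂ) ∈ LSub q M := by
  refine ⟨SetLike.coe_mem _, fun γ hγ => ES.lexp_injective
    (ES.act_mem_BSub (SetLike.coe_mem _) γ) (SetLike.coe_mem _) (γ := 1) ?_⟩
  rw [ES.lexp_act, lexp_conjKM, lexp_conjKM, mul_one]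
  congr 1
  rw [show lexp (q * M) γ (f : ℍ → ℂ) = lexp (q * M) 1 (act γ (f : ℍ → ℂ)) by
    rw [ES.lexp_act, mul_one], h.2 γ hγ]

/-! ### Averaging over embeddings -/

variable {L : IntermediateField (kField q (zetaP Φ) n) (PadicAlgCl q)}

variable [FiniteDimensional (kField q (zetaP Φ) n) L]

/-- The trace of `c • f`. -/
def avgKM (f : BSub (q * M)) (c : L) : BSub (q * M) :=
  ∑ σ : L →ₐ[kField q (zetaP Φ) n] PadicAlgCl q,
    algebraMap ℂ (BSub (q * M)) (Φ.symm (σ c)) * conjKM Φ haux hM hn (extEmb_fix Φ σ) f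

theorem avgK_addM (f : BSub (q * M)) (c d : L) :
    avgKM Φ haux hM hn f (c + d) = avgKM Φ haux hM hn f c + avgKM Φ haux hM hn f d := by
  simp only [avgKM, map_add, add_mul, Finset.sum_add_distrib]

theorem avgK_applyM (f : BSub (q * M)) (c : L) (τ : ℍ) :
    (avgKM Φ haux hM hn f c : ℍ → ℂ) τ = ∑ σ : L →ₐ[kField q (zetaP Φ) n] PadicAlgCl q,
      Φ.symm (σ c) * (conjKM Φ haux hM hn (extEmb_fix Φ σ) f : ℍ → ℂ) τ := by
  rw [avgKM, AddSubmonoidClass.coe_finsetSum, Finset.sum_apply]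
  rfl

theorem avgK_mem_LRingM {f : BSub (q * M)} (hf : (f : ℍ → ℂ) ∈ LRing q M (CPlace.ofEquiv Φ).ring)
    (hL : ∀ γ i, Φ ((lexp (q * M) γ (f : ℍ → ℂ)).coeff i) ∈ L) {c : L}
    (hc : ‖(c : PadicAlgCl q)‖ ≤ 1) :
    (avgKM Φ haux hM hn f c : ℍ → ℂ) ∈ LRing q M (oRing Φ n) := by
  classical
  refine mem_LRing.mpr ⟨?_, fun γ i => ?_⟩
  · rw [avgKM, AddSubmonoidClass.coe_finsetSum]
    exact sum_mem fun σ _ => mul_mem ((LSub q M).algebraMap_mem _)
      (conjK_mem_LSubM Φ haux hM hn _ hf.2)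
  set e : L := ⟨_, hL γ i⟩
  have hcoef : (lexp (q * M) γ (avgKM Φ haux hM hn f c : ℍ → ℂ)).coeff i =
      Φ.symm (algebraMap _ (PadicAlgCl q) (Algebra.trace (kField q (zetaP Φ) n) L (c * e))) := by
    rw [trace_eq_sum_embeddings (PadicAlgCl q), map_sum, ← ES.expHom_apply, avgKM, map_sum,
      HahnSeries.coeff_sum]
    refine Finset.sum_congr rfl fun σ _ => ?_
    rw [map_mul, map_mul, map_mul, ES.expHom_apply, ES.expHom_apply, lexp_conjKM,
      show lexp (q * M) γ ((algebraMap ℂ (BSub (q * M)) (Φ.symm (σ c)) : BSub (q * M)) : ℍ → ℂ) =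
        HahnSeries.C (Φ.symm (σ c)) from lexp_eq (ES.HasLExp.const _),
      HahnSeries.C_mul_eq_smul, HahnSeries.coeff_smul, smul_eq_mul, ES.coeff_mapSer,
      ← extEmb_apply Φ σ e]
    congr 1
  rw [hcoef, mem_oRing, Φ.apply_symm_apply]
  refine ⟨SetLike.coe_mem _, ?_⟩
  rw [trace_eq_sum_embeddings (PadicAlgCl q)]
  refine (IsUltrametricDist.norm_sum_le_of_forall_le_of_nonneg zero_le_one fun σ _ => ?_)
  rw [map_mul, ← extEmb_apply Φ σ c, ← extEmb_apply Φ σ e, norm_mul, CFT.Local.norm_apply,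
    CFT.Local.norm_apply]
  refine mul_le_one₀ hc (norm_nonneg _) ?_
  have h := hf.1.2 γ i
  rwa [CPlace.mem_ring, CPlace.ofEquiv_abv] at h

/-- A power of `q` makes finitely many elements integral. -/
private theorem exists_pow_mul_norm_le {ι : Type*} (s : Finset ι)
    (x : ι → PadicAlgCl q) : ∃ N : ℕ, ∀ l ∈ s, ‖(q : PadicAlgCl q)‖ ^ N * ‖x l‖ ≤ 1 := by
  set B := ∑ l ∈ s, ‖x l‖ + 1
  have hs : 0 ≤ ∑ l ∈ s, ‖x l‖ := Finset.sum_nonneg fun l _ => norm_nonneg _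
  have hB : 0 < B := by simp only [B]; linarith
  obtain ⟨N, hN⟩ := exists_pow_lt_of_lt_one (inv_pos.mpr hB) (CFT.Local.norm_q_lt_one (q := q))
  refine ⟨N, fun l hl => ?_⟩
  have h1 : ‖x l‖ ≤ B := by
    have := Finset.single_le_sum (f := fun l => ‖x l‖) (fun l _ => norm_nonneg _) hl
    simp only [B]; linarith
  calc _ ≤ B⁻¹ * B := mul_le_mul hN.le h1 (norm_nonneg _) (by positivity)
    _ = 1 := inv_mul_cancel₀ hB.ne'

/-- Some integral multiple of two functions keeps both values nonzero. -/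
theorem exists_avgK_ne_zeroM {f g : BSub (q * M)}
    (hf : ∀ γ i, Φ ((lexp (q * M) γ (f : ℍ → ℂ)).coeff i) ∈ L)
    (hg : ∀ γ i, Φ ((lexp (q * M) γ (g : ℍ → ℂ)).coeff i) ∈ L) {τ : ℍ}
    (hfτ : (f : ℍ → ℂ) τ ≠ 0) (hgτ : (g : ℍ → ℂ) τ ≠ 0) :
    ∃ c : L, ‖(c : PadicAlgCl q)‖ ≤ 1 ∧ (avgKM Φ haux hM hn f c : ℍ → ℂ) τ ≠ 0 ∧
      (avgKM Φ haux hM hn g c : ℍ → ℂ) τ ≠ 0 := by
  classical
  have key : ∀ {f : BSub (q * M)}, (∀ γ i, Φ ((lexp (q * M) γ (f : ℍ → ℂ)).coeff i) ∈ L) →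
      (f : ℍ → ℂ) τ ≠ 0 → ∃ c : L, (avgKM Φ haux hM hn f c : ℍ → ℂ) τ ≠ 0 := by
    intro f hfL hne
    by_contra! h
    set a : (L →ₐ[kField q (zetaP Φ) n] PadicAlgCl q) → PadicAlgCl q := fun σ =>
      Φ ((conjKM Φ haux hM hn (extEmb_fix Φ σ) f : ℍ → ℂ) τ)
    have hli : LinearIndependent (PadicAlgCl q)
        (fun σ : L →ₐ[kField q (zetaP Φ) n] PadicAlgCl q =>
          ((σ : L →* PadicAlgCl q) : L → PadicAlgCl q)) :=
      (linearIndependent_monoidHom L (PadicAlgCl q)).comp _ fun σ σ' h =>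
        AlgHom.ext fun x => DFunLike.congr_fun h x
    have ha : a L.val = 0 := Fintype.linearIndependent_iff.mp hli a (funext fun x => by
      have h1 := congrArg Φ (h x)
      rw [avgK_applyM, map_sum, map_zero] at h1
      rw [Finset.sum_apply, Pi.zero_apply]
      refine Eq.trans (Finset.sum_congr rfl fun σ _ => ?_) h1
      rw [map_mul, Φ.apply_symm_apply, Pi.smul_apply, smul_eq_mul, mul_comm]
      rfl) L.val
    refine hne ((map_eq_zero Φ).mp (Eq.trans ?_ ha))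
    simp only [a]
    rw [conjK_eq_selfM Φ haux hM hn _ fun i => ?_]
    exact extEmb_apply Φ L.val ⟨_, hfL 1 i⟩
  obtain ⟨c, hc⟩ := key hf hfτ
  obtain ⟨d, hd⟩ := key hg hgτ
  obtain ⟨b, hb, hb'⟩ : ∃ b : L, (avgKM Φ haux hM hn f b : ℍ → ℂ) τ ≠ 0 ∧
      (avgKM Φ haux hM hn g b : ℍ → ℂ) τ ≠ 0 := by
    by_cases h1 : (avgKM Φ haux hM hn g c : ℍ → ℂ) τ = 0
    · by_cases h2 : (avgKM Φ haux hM hn f d : ℍ → ℂ) τ = 0
      · refine ⟨c + d, ?_, ?_⟩ <;> rw [avgK_addM, AddMemClass.coe_add, Pi.add_apply]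
        · rwa [h2, add_zero]
        · rwa [h1, zero_add]
      · exact ⟨d, h2, hd⟩
    · exact ⟨c, hc, h1⟩
  obtain ⟨N, hN⟩ : ∃ N : ℕ, ‖(q : PadicAlgCl q)‖ ^ N * ‖(b : PadicAlgCl q)‖ ≤ 1 :=
    (exists_pow_mul_norm_le (q := q) {b} fun l => (l : PadicAlgCl q)).imp fun N h =>
      h b (Finset.mem_singleton_self b)
  have hscale : ∀ f : BSub (q * M), (avgKM Φ haux hM hn f ((q : L) ^ N * b) : ℍ → ℂ) τ =
      (q : ℂ) ^ N * (avgKM Φ haux hM hn f b : ℍ → ℂ) τ := fun f => by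
    simp only [avgK_applyM, map_mul, map_pow, map_natCast, Finset.mul_sum, mul_assoc]
  refine ⟨(q : L) ^ N * b, ?_, ?_, ?_⟩
  · push_cast
    rwa [norm_mul, norm_pow]
  all_goals
    rw [hscale]
    exact mul_ne_zero (pow_ne_zero _ (Nat.cast_ne_zero.mpr hq.out.ne_zero)) ‹_›

/-! ### The witnesses -/

omit [FiniteDimensional (kField q (zetaP Φ) n) L] in
include haux in
theorem exists_local_LSubM {y : ℍ → ℂ} (hy : y ∈ LSub q M) (hy0 : y ≠ 0) (τ : ℍ) :
    ∃ (j : ℕ) (E X : ℍ → ℂ), E ∈ LSub q M ∧ X ∈ LSub q M ∧ E τ ≠ 0 ∧ X τ ≠ 0 ∧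
      y * E = hauptSub haux (haupt haux.dvd τ) ^ j * X ∧ vanishOrd y τ = j := by
  classical
  set haux' := auxLevel_level (q := q) haux
  obtain ⟨j, e, x, he, hx, he0, hx0, heq, hord⟩ := ES.exists_local_form haux' hy.1 hy0 τ
  rw [show hauptSub haux' (haupt haux'.dvd τ) = hauptSub haux (haupt haux.dvd τ) by
    simp only [hauptSub, haupt_level haux]] at heq
  set fib := ES.fibIdem haux' τ 1
  have hfib : fib ∈ BSub (q * M) :=
    (ES.fibIdem_mem haux' ES.zetaC_goodRoot_top (ES.goodPoint_top haux' τ) 1).1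
  set U := imgG haux (le_refl (lam q M))
  have hsum : ∀ {f : ℍ → ℂ}, f ∈ BSub (q * M) →
      (∑ h ∈ U, act (ES.repG (q * M) 2 h) f) ∈ LSub q M := fun {f} hf =>
    ⟨Subalgebra.sum_mem _ fun h _ => ES.act_mem_BSub hf _, fun γ hγ =>
      act_sum_imgG haux _ hf hγ⟩
  have hval : ∀ {f : ℍ → ℂ}, f ∈ BSub (q * M) →
      (∑ h ∈ U, act (ES.repG (q * M) 2 h) (fib * f)) τ = f τ := by
    intro f hf
    rw [Finset.sum_apply, Finset.sum_eq_single (1 : ES.GalGrp (q * M) 2) (fun h _ hh => ?_)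
      (fun h => absurd (one_mem_imgG haux _) h), ES.act_mulFun, Pi.mul_apply]
    · show fib (ES.orbPt (q * M) 2 τ 1) * f (ES.orbPt (q * M) 2 τ 1) = f τ
      rw [ES.apply_orbPt_one hf τ, show fib (ES.orbPt (q * M) 2 τ 1) = _ from
        ES.fibIdem_orbPt haux' τ 1 1, if_pos rfl, one_mul]
    · rw [ES.act_mulFun, Pi.mul_apply]
      show fib (ES.orbPt (q * M) 2 τ h) * f (ES.orbPt (q * M) 2 τ h) = 0
      rw [show fib (ES.orbPt (q * M) 2 τ h) = _ from ES.fibIdem_orbPt haux' τ 1 h,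
        if_neg (Ne.symm hh), zero_mul]
  refine ⟨j, ∑ h ∈ U, act (ES.repG (q * M) 2 h) (fib * e ^ j),
    ∑ h ∈ U, act (ES.repG (q * M) 2 h) (fib * x),
    hsum (mul_mem hfib (pow_mem he j)), hsum (mul_mem hfib hx),
    ?_, ?_, ?_, hord⟩
  · rw [hval (pow_mem he j), Pi.pow_apply]
    exact pow_ne_zero _ he0
  · rwa [hval hx]
  rw [Finset.mul_sum, Finset.mul_sum]
  refine Finset.sum_congr rfl fun h hh => ?_
  have hπinv : act (ES.repG (q * M) 2 h) (hauptSub haux (haupt haux.dvd τ)) =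
      hauptSub haux (haupt haux.dvd τ) := by
    simp only [hauptSub, ES.act_sub, ES.act_const, haupt, ES.act_polFun haux (ES.repG_mem h)]
  conv_lhs => rw [← act_rep_of_mem_imgG haux _ hy.1 hy.2 hh, ← ES.act_mulFun,
    show y * (fib * e ^ j) = fib * (e ^ j * y) by ring, heq,
    show fib * (hauptSub haux (haupt haux.dvd τ) ^ j * x) =
      hauptSub haux (haupt haux.dvd τ) ^ j * (fib * x) by ring, ES.act_mulFun]
  congr 1
  funext z
  have := congrFun hπinv z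
  simp only [ES.act_apply, Pi.pow_apply] at this ⊢
  rw [this]

omit [FiniteDimensional (kField q (zetaP Φ) n) L] in
include haux hM hn in
/-- A multiple of the local parameter at `τ` by a factor not vanishing there is defined over the
coefficient ring: the minimal polynomial of the value, evaluated at the parameter. -/
private theorem exists_multiple_hauptSub (τ : ℍ) :
    ∃ (c : ℂ) (F : ℍ → ℂ) (D : LRing q M (oRing Φ n)), c ≠ 0 ∧ F ∈ LSub q M ∧ F τ ≠ 0 ∧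
      (D : ℍ → ℂ) = algebraMap ℂ (ℍ → ℂ) c * (hauptSub haux (haupt haux.dvd τ) * F) := by
  have hA := goodRoot_oRingM Φ hM hn
  set Kf := kField q (zetaP Φ) n
  set t := haupt haux.dvd
  set a := t τ
  have hint : IsIntegral Kf (Φ a) := Algebra.IsIntegral.isIntegral _
  set m := minpoly Kf (Φ a)
  set ψ : Kf →+* ℂ := (Φ.symm : PadicAlgCl q →+* ℂ).comp (algebraMap Kf (PadicAlgCl q))
  set FC := m.map ψ
  have hroot : FC.IsRoot a := by
    have h1 : m.eval₂ ψ (Φ.symm (Φ a)) = 0 := by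
      rw [← show (Φ.symm : PadicAlgCl q →+* ℂ) (Φ a) = Φ.symm (Φ a) from rfl,
        ← Polynomial.hom_eval₂, ← Polynomial.aeval_def, minpoly.aeval, map_zero]
    rwa [Φ.symm_apply_apply, ← Polynomial.eval_map] at h1
  set G := FC /ₘ (Polynomial.X - Polynomial.C a)
  have hFG : (Polynomial.X - Polynomial.C a) * G = FC :=
    Polynomial.mul_divByMonic_eq_iff_isRoot.mpr hroot
  have hsep : FC.Separable := ((minpoly.irreducible hint).separable).map
  have hGa : G.eval a ≠ 0 := by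
    intro h0
    have h1 : (Polynomial.X - Polynomial.C a) * (Polynomial.X - Polynomial.C a) ∣ FC := by
      rw [← hFG]
      exact mul_dvd_mul_left _ (Polynomial.dvd_iff_isRoot.mpr h0)
    exact Polynomial.not_isUnit_X_sub_C a
      (hsep.squarefree _ h1)
  obtain ⟨N, hN⟩ := exists_pow_mul_norm_le (q := q) (Finset.range (m.natDegree + 1))
    fun l => (m.coeff l : PadicAlgCl q)
  set c : ℂ := (q : ℂ) ^ N
  have hc0 : c ≠ 0 := pow_ne_zero _ (Nat.cast_ne_zero.mpr hq.out.ne_zero)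
  set evT := Polynomial.eval₂RingHom (algebraMap ℂ (ℍ → ℂ)) t
  have hevT : ∀ (F : Polynomial ℂ) (z : ℍ), evT F z = F.eval (t z) := fun F z => by
    show Pi.evalRingHom (fun _ : ℍ => ℂ) z (F.eval₂ (algebraMap ℂ (ℍ → ℂ)) t) = _
    rw [Polynomial.hom_eval₂]
    rfl
  have ht : t ∈ LRing q M (oRing Φ n) :=
    mem_LRing_of_BRing (q := q) (ES.polFun_mem_BRing haux hA (ES.one_le haux))
  have hT : ∀ F : Polynomial ℂ, evT F ∈ LSub q M := fun F => by
    rw [show evT F = F.eval₂ _ t from rfl, Polynomial.eval₂_eq_sum_range]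
    exact sum_mem fun l _ => mul_mem ((LSub q M).algebraMap_mem _) (pow_mem ht.2 l)
  have hD : algebraMap ℂ (ℍ → ℂ) c * evT FC ∈ LRing q M (oRing Φ n) := by
    rw [show evT FC = FC.eval₂ _ t from rfl, Polynomial.eval₂_eq_sum_range, Finset.mul_sum]
    refine sum_mem fun l hl => ?_
    rw [← mul_assoc, ← map_mul]
    refine mul_mem (const_mem_LRing ((mem_oRing Φ).mpr ?_)) (pow_mem ht l)
    rw [Polynomial.natDegree_map] at hl
    have e : Φ (c * FC.coeff l) = (q : PadicAlgCl q) ^ N * (m.coeff l : PadicAlgCl q) := by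
      rw [map_mul, map_pow, map_natCast, Polynomial.coeff_map]
      congr 1
      exact Φ.apply_symm_apply _
    show Φ (c * FC.coeff l) ∈ _ ∧ ‖Φ (c * FC.coeff l)‖ ≤ 1
    rw [e, norm_mul, norm_pow]
    exact ⟨mul_mem (pow_mem (natCast_mem _ q) N) (SetLike.coe_mem _), hN l hl⟩
  refine ⟨c, evT G, ⟨_, hD⟩, hc0, hT G, by rwa [hevT], ?_⟩
  show algebraMap ℂ (ℍ → ℂ) c * evT FC = _
  rw [← hFG, map_mul evT, show hauptSub haux a = evT (Polynomial.X - Polynomial.C a) by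
    funext z; rw [hevT]; simp [hauptSub, t, a]]

omit [FiniteDimensional (kField q (zetaP Φ) n) L] in
include haux hM in
/-- Constants and the separating function make witnesses integral. -/
private theorem exists_integral_witness {y D E X : ℍ → ℂ} (hE : E ∈ LSub q M) (hX : X ∈ LSub q M)
    {τ : ℍ} (hEτ : E τ ≠ 0) (hXτ : X τ ≠ 0) (hrel : y * E = D * X) :
    ∃ E' X' : ℍ → ℂ, E' ∈ LRing q M (CPlace.ofEquiv Φ).ring ∧
      X' ∈ LRing q M (CPlace.ofEquiv Φ).ring ∧ E' τ ≠ 0 ∧ X' τ ≠ 0 ∧ y * E' = D * X' := by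
  have hN' : sepN q haux ∈ BSub M :=
    (sepN_mem_BRing haux (A := ⊤) ES.zetaC_goodRoot_top trivial).1
  obtain ⟨c1, hc1, hc1P, h1⟩ := exists_const_mul_sepN (P := CPlace.ofEquiv Φ) haux hM hE.1
  obtain ⟨c2, hc2, hc2P, h2⟩ := exists_const_mul_sepN (P := CPlace.ofEquiv Φ) haux hM hX.1
  refine ⟨algebraMap ℂ (ℍ → ℂ) c2 * (algebraMap ℂ (ℍ → ℂ) c1 * sepN q haux * E),
    algebraMap ℂ (ℍ → ℂ) c1 * (algebraMap ℂ (ℍ → ℂ) c2 * sepN q haux * X),
    mul_mem (const_mem_LRing hc2P)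
      ⟨h1, mul_mem (mul_mem ((LSub q M).algebraMap_mem c1) (mem_LSub_of_BSub hN')) hE⟩,
    mul_mem (const_mem_LRing hc1P)
      ⟨h2, mul_mem (mul_mem ((LSub q M).algebraMap_mem c2) (mem_LSub_of_BSub hN')) hX⟩, ?_, ?_, ?_⟩
  · simp only [Pi.mul_apply]
    exact mul_ne_zero hc2 (mul_ne_zero (mul_ne_zero hc1 (sepN_ne_zero haux τ)) hEτ)
  · simp only [Pi.mul_apply]
    exact mul_ne_zero hc1 (mul_ne_zero (mul_ne_zero hc2 (sepN_ne_zero haux τ)) hXτ)
  · linear_combination (algebraMap ℂ (ℍ → ℂ) c1 * algebraMap ℂ (ℍ → ℂ) c2 * sepN q haux) * hrel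

omit [FiniteDimensional (kField q (zetaP Φ) n) L] in
include haux hM hn in
/-- Averaging over a finite extension containing all coefficients descends integral witnesses to
the coefficient ring. -/
private theorem exists_descended_witness {y D : LRing q M (oRing Φ n)} {e : ℕ} {E2 X2 : ℍ → ℂ}
    (hE2 : E2 ∈ LRing q M (CPlace.ofEquiv Φ).ring) (hX2 : X2 ∈ LRing q M (CPlace.ofEquiv Φ).ring)
    {τ : ℍ} (hne : E2 τ ≠ 0 ∧ X2 τ ≠ 0)
    (hrel : (y : ℍ → ℂ) * E2 = (D : ℍ → ℂ) ^ e * X2) :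
    ∃ E3 X3 : LRing q M (oRing Φ n), (E3 : ℍ → ℂ) τ ≠ 0 ∧ (X3 : ℍ → ℂ) τ ≠ 0 ∧
      (y : ℍ → ℂ) * (E3 : ℍ → ℂ) = (D : ℍ → ℂ) ^ e * (X3 : ℍ → ℂ) := by
  classical
  set Kf := kField q (zetaP Φ) n
  set P := CPlace.ofEquiv Φ
  obtain ⟨S1, hS1P, hS1⟩ := exists_finset_mem_LRing haux hM hE2
  obtain ⟨S2, hS2P, hS2⟩ := exists_finset_mem_LRing haux hM hX2
  -- a finite extension containing all coefficients
  set gens : Set ℂ := Φ.symm '' {zetaP Φ, unramRoot (botF q) n, wRoot q}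
  set O' := padicSubring Φ (gens ∪ ↑(S1 ∪ S2))
  set L : IntermediateField Kf (PadicAlgCl q) :=
    IntermediateField.adjoin Kf (Φ '' ↑(S1 ∪ S2))
  have : Finite (Φ '' (↑(S1 ∪ S2) : Set ℂ) : Set (PadicAlgCl q)) :=
    ((S1 ∪ S2).finite_toSet.image Φ).to_subtype
  have : FiniteDimensional Kf L :=
    IntermediateField.finiteDimensional_adjoin fun x _ => Algebra.IsIntegral.isIntegral x
  have hO'L : ∀ x ∈ O', Φ x ∈ L := by
    intro x hx
    have hle : IntermediateField.adjoin ℚ_[q] (Φ '' (gens ∪ ↑(S1 ∪ S2))) ≤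
        L.restrictScalars ℚ_[q] := by
      rw [IntermediateField.adjoin_le_iff, Set.image_union, Set.union_subset_iff]
      refine ⟨fun z hz => ?_, fun z hz => (IntermediateField.mem_restrictScalars _).mpr
        (IntermediateField.subset_adjoin Kf _ hz)⟩
      have hzK : z ∈ Kf := by
        have h := IntermediateField.subset_adjoin ℚ_[q] _ hz
        rwa [adjoin_oRing] at h
      exact L.algebraMap_mem ⟨z, hzK⟩
    exact hle hx.1
  have hCD : P.IsCDVR O' := ES.isCDVR_padicSubring Φ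
    (((Set.toFinite _).image _).union (S1 ∪ S2).finite_toSet)
  have hle : oRing Φ n ≤ O' := ES.padicSubring_mono Φ Set.subset_union_left
  have hsub : ∀ (S' : Finset ℂ), (S' : Set ℂ) ⊆ P.ring → S' ⊆ S1 ∪ S2 → (S' : Set ℂ) ⊆ O' :=
    fun S' hS' hs x hx => ES.mem_padicSubring Φ (Or.inr (hs hx)) (by
      have := hS' hx
      rwa [SetLike.mem_coe, CPlace.mem_ring, CPlace.ofEquiv_abv] at this)
  have hA' := hCD.goodRoot (P.goodRoot hM) (hle (zetaC_mem_oRingM Φ hM hn).2.1)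
  have hζ' := hle (zetaC_mem_oRingM Φ hM hn).1
  have hE2' := hS1 O' hCD hA' hζ' (hsub S1 hS1P Finset.subset_union_left)
  have hX2' := hS2 O' hCD hA' hζ' (hsub S2 hS2P Finset.subset_union_right)
  set f : BSub (q * M) := ⟨E2, hE2.1.1⟩
  set g : BSub (q * M) := ⟨X2, hX2.1.1⟩
  have hfL : ∀ γ e, Φ ((lexp (q * M) γ E2).coeff e) ∈ L := fun γ e => hO'L _ (hE2'.1.2 γ e)
  have hgL : ∀ γ e, Φ ((lexp (q * M) γ X2).coeff e) ∈ L := fun γ e => hO'L _ (hX2'.1.2 γ e)
  obtain ⟨b, hb, hbE, hbX⟩ :=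
    exists_avgK_ne_zeroM Φ haux hM hn (f := f) (g := g) hfL hgL hne.1 hne.2
  set E3 : LRing q M (oRing Φ n) :=
    ⟨_, avgK_mem_LRingM Φ haux hM hn (f := f) hE2 hfL hb⟩
  set X3 : LRing q M (oRing Φ n) :=
    ⟨_, avgK_mem_LRingM Φ haux hM hn (f := g) hX2 hgL hb⟩
  refine ⟨E3, X3, hbE, hbX, ?_⟩
  set yB : BSub (q * M) := ⟨_, y.2.1.1⟩
  set dB : BSub (q * M) := ⟨_, D.2.1.1⟩
  have hB : yB * avgKM Φ haux hM hn f b = dB ^ e * avgKM Φ haux hM hn g b := by
    rw [avgKM, avgKM, Finset.mul_sum, Finset.mul_sum]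
    refine Finset.sum_congr rfl fun σ _ => ?_
    have h := congrArg (conjKM Φ haux hM hn (extEmb_fix Φ σ))
      (show yB * f = dB ^ e * g from Subtype.ext hrel)
    rw [map_mul, map_mul, map_pow, conjK_eq_self_of_memM Φ haux hM hn _ (f := yB) y.2.1,
      conjK_eq_self_of_memM Φ haux hM hn _ (f := dB) D.2.1] at h
    linear_combination (algebraMap ℂ (BSub (q * M)) (Φ.symm (σ b))) * h
  exact congrArg Subtype.val hB

omit [FiniteDimensional (kField q (zetaP Φ) n) L] in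
include haux hM hn in
/-- **Divisibility over the coefficient ring.** -/
theorem divisible_oRingM {k : ℕ} {y : LRing q M (oRing Φ n)} (hy0 : (y : ℍ → ℂ) ≠ 0)
    (hord : ∀ τ (j : ℕ), vanishOrd (y : ℍ → ℂ) τ = j → k ∣ j) :
    Divisible q M (oRing Φ n) k (y : ℍ → ℂ) := by
  intro τ _
  obtain ⟨j, E, X, hE, hX, hEτ, hXτ, heq, hj⟩ := exists_local_LSubM haux y.2.2 hy0 τ
  obtain ⟨i, rfl⟩ := hord τ j hj
  obtain ⟨c, F, D, hc, hF, hFτ, hD⟩ := exists_multiple_hauptSub Φ haux hM hn τ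
  have hrel : (y : ℍ → ℂ) * (algebraMap ℂ (ℍ → ℂ) (c ^ (k * i)) * E * F ^ (k * i)) =
      (D : ℍ → ℂ) ^ (k * i) * X := by
    rw [hD, show (y : ℍ → ℂ) * (algebraMap ℂ (ℍ → ℂ) (c ^ (k * i)) * E * F ^ (k * i)) =
      algebraMap ℂ (ℍ → ℂ) (c ^ (k * i)) * F ^ (k * i) * ((y : ℍ → ℂ) * E) by ring, heq, map_pow]
    ring
  have hE1τ : (algebraMap ℂ (ℍ → ℂ) (c ^ (k * i)) * E * F ^ (k * i)) τ ≠ 0 := by
    simp only [Pi.mul_apply, Pi.pow_apply]
    exact mul_ne_zero (mul_ne_zero (pow_ne_zero _ hc) hEτ) (pow_ne_zero _ hFτ)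
  obtain ⟨E2, X2, hE2, hX2, hE2τ, hX2τ, hrel2⟩ := exists_integral_witness Φ haux hM
    (mul_mem (mul_mem ((LSub q M).algebraMap_mem _) hE) (pow_mem hF _)) hX hE1τ hXτ hrel
  obtain ⟨E3, X3, hE3, hX3, h3⟩ :=
    exists_descended_witness Φ haux hM hn hE2 hX2 ⟨hE2τ, hX2τ⟩ hrel2
  exact ⟨i, E3, D, X3, hE3, hX3, h3⟩

end FermatAgent.BAD.AtP
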