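import Fermat.Agent.BAD.AtP.Level.Descent
import Fermat.Agent.BAD.TwoP.Enlarge

/-!
# Enlarging the coefficients at level `M`

A polynomial with non-zero reduction of a function over a coefficient ring becomes a good
polynomial over all large coefficient rings.
-/

set_option autoImplicit false

open UpperHalfPlane CongruenceSubgroup IsLocalRing
open scoped MatrixGroups

noncomputable section

namespace FermatAgent.BAD.AtP

open FermatAgent.BAD.TwoP
open FermatAgent.ES (BSub BRing act lexp lexp_eq zetaC AuxLevel CPlace GoodRoot GoodPoint GalRel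
  GalGrp mapSer haupt hauptSub vanishOrd padicSubring)
open CFT.Local (unramRoot botF Gal' res Res')

variable {q M : ℕ} [hq : Fact q.Prime] [NeZero M] (Φ : ℂ ≃+* PadicAlgCl q)

omit hq [NeZero M] in
/-- `M ∣ q ^ n - 1` and `n ∣ m` give `M ∣ q ^ m - 1`. -/
theorem dvd_pow_sub_one_trans {n m : ℕ} (hn : M ∣ q ^ n - 1) (hnm : n ∣ m) : M ∣ q ^ m - 1 :=
  hn.trans (Nat.pow_sub_one_dvd_pow_sub_one q hnm)

variable (hM : M.Coprime q) (haux : AuxLevel M 2) {n m : ℕ} [NeZero n] [NeZero m]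
  (hn : M ∣ q ^ n - 1)
  (hnm : n ∣ m)

/-- The inclusion of the rings of functions. -/
abbrev inclNM : LRing q M (oRing Φ n) →+* LRing q M (oRing Φ m) := inclL (oRing_mono Φ hnm)

theorem hasPoly_inclM {f : LRing q M (oRing Φ n)} {e : ℕ} {F : Polynomial (oRing Φ n)}
    (h : HasPoly haux (goodRoot_oRingM Φ hM hn) (oRing_le Φ n) f e F) :
    HasPoly haux (goodRoot_oRingM Φ hM (dvd_pow_sub_one_trans (q := q) hn hnm)) (oRing_le Φ m)
      (inclNM Φ hnm f) e
      (F.map (Subring.inclusion (oRing_mono Φ hnm))) :=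
  h.inclL_map _ _ _

include hM haux in
/-- **Good polynomials over larger rings.** -/
theorem exists_goodPolyM (hn : M ∣ q ^ n - 1) {f : LRing q M (oRing Φ n)} {e : ℕ}
    {F : Polynomial (oRing Φ n)} (h : HasPoly haux (goodRoot_oRingM Φ hM hn) (oRing_le Φ n) f e F)
    (hF : F.map (residue (oRing Φ n)) ≠ 0) :
    ∃ N : ℕ, 0 < N ∧ ∀ (m : ℕ) [NeZero m] (hnm : n ∣ m), N ∣ m →
      ∀ T : TauData q M (CPlace.ofEquiv Φ) (oRing Φ m),
        (∀ z : ℂ, T.D.σ z = conjC Φ (tauP Φ) z) →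
        GoodPoly haux (goodRoot_oRingM Φ hM (dvd_pow_sub_one_trans (q := q) hn hnm))
          (oRing_le Φ m) T (inclNM Φ hnm f) e
          (F.map (Subring.inclusion (oRing_mono Φ hnm))) := by
  classical
  have := isAlgClosed_res (q := q)
  obtain ⟨ιn, hιn, -⟩ := exists_resHom Φ n
  set F' := (F.map (residue (oRing Φ n))).map ιn
  have hF' : F' ≠ 0 := (Polynomial.map_ne_zero_iff ιn.injective).mpr hF
  choose d hd hdc using fun c : Res' q => exists_exponent_res c
  have hgood : ∀ c : Res' q, ∃ N : ℕ, 0 < N ∧ (c ≠ 0 → c ≠ 1 → ∃ τ0 : ℍ,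
      resP Φ (haupt haux.dvd τ0) = c ∧
      conjC Φ (tauP Φ) (haupt haux.dvd τ0) = haupt haux.dvd τ0 ∧
      ∀ n, N ∣ n → ∀ [NeZero n], GoodPoint haux (oRing Φ n) τ0) := by
    intro c
    by_cases h0 : c = 0
    · exact ⟨1, one_pos, fun h => absurd h0 h⟩
    by_cases h1 : c = 1
    · exact ⟨1, one_pos, fun _ h => absurd h1 h⟩
    obtain ⟨τ0, N, hN, hres, hfix, hg⟩ := exists_goodM Φ hM haux h0 h1
    exact ⟨N, hN, fun _ _ => ⟨τ0, hres, hfix, hg⟩⟩
  choose G hG0 hG using hgood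
  refine ⟨∏ c ∈ F'.roots.toFinset, d c * G c, Finset.prod_pos fun c _ => Nat.mul_pos (hd c) (hG0 c),
    fun m _ hnm hNm T hT => ?_⟩
  obtain ⟨ιm, hιm, hrange⟩ := exists_resHom Φ m
  set j := Subring.inclusion (oRing_mono Φ hnm)
  have hmap : ((F.map j).map (residue (oRing Φ m))).map ιm = F' := by
    simp only [F', Polynomial.map_map]
    refine congrArg (F.map ·) (RingHom.ext fun o => ?_)
    rw [RingHom.comp_apply, RingHom.comp_apply, RingHom.comp_apply, hιm, hιn,
      show ((j o : oRing Φ m) : ℂ) = (o : ℂ) from Subring.coe_inclusion (oRing_mono Φ hnm) o]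
  have hne : (F.map j).map (residue (oRing Φ m)) ≠ 0 := fun h0 => hF' (by
    rw [← hmap, h0, Polynomial.map_zero])
  have hdvd : ∀ c ∈ F'.roots, d c ∣ m ∧ G c ∣ m := fun c hc =>
    have h1 : d c * G c ∣ m := ((Finset.dvd_prod_of_mem (fun c => d c * G c)
      (Multiset.mem_toFinset.mpr hc)).trans hNm)
    ⟨(dvd_mul_right _ _).trans h1, (dvd_mul_left _ _).trans h1⟩
  refine ⟨hasPoly_inclM Φ hM haux hn hnm h, hne,
    Polynomial.Splits.of_splits_map ιm (IsAlgClosed.splits _) fun c hc => ?_, fun a ha h0 h1 => ?_⟩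
  · rw [hmap] at hc
    refine hrange c ((hdc c).imp_right fun h => ?_)
    obtain ⟨r, hr⟩ := Nat.pow_sub_one_dvd_pow_sub_one q (hdvd c hc).1
    rw [hr, pow_mul, h, one_pow]
  set c := ιm a
  have hc : c ∈ F'.roots := by
    rw [Polynomial.mem_roots hF', ← hmap]
    exact ha.map
  obtain ⟨τ0, hres, hfix, hg⟩ := hG c
    ((map_ne_zero ιm).mpr h0) fun hc1 => h1 (ιm.injective (hc1.trans (map_one ιm).symm))
  have hg' := hg m (hdvd c hc).2
  refine ⟨τ0, hg', ιm.injective ((hιm _).trans hres), Subtype.ext ?_⟩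
  rw [T.D.coe_σO, hT]
  exact hfix

end FermatAgent.BAD.AtP
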