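import Fermat.Agent.BAD.AtP.Level.Enlarge
import Fermat.Agent.BAD.Toric.Fixed
import Fermat.Agent.BAD.Toric.Content

/-!
# Rational Kummer elements at level `M`

A character fixed over the coefficient field has a form whose normalised `q`-th power is an
element of the ring of level `q M` over the coefficient ring.
-/

set_option autoImplicit false

open UpperHalfPlane CongruenceSubgroup
open scoped MatrixGroups

noncomputable section

namespace FermatAgent.BAD.AtP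

open FermatAgent.BAD.TwoP
open FermatAgent.ES (BSub act lexp lexp_eq zetaC AuxLevel CPlace HasExp IsTwist parGroup conjChar
  goodLevel_Gamma0 auxW auxSer mapSer)
open CFT.Local (Gal')

variable {q M : ℕ} [hq : Fact q.Prime] [NeZero M] (Φ : ℂ ≃+* PadicAlgCl q) {n : ℕ} [NeZero n]

omit [NeZero M] hq in
/-- The group of level `q M` is contained in `Γ₀(L q)` for `L` dividing `M`. -/
theorem lam_le_gamma0M (hM : M.Coprime q) {L : ℕ} (hLM : L ∣ M) :
    lam q M ≤ Gamma0 (L * q) := by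
  rintro γ ⟨h0, h2⟩
  have a : (L : ℤ) ∣ γ 1 0 := (Int.natCast_dvd_natCast.mpr hLM).trans
    ((ZMod.intCast_zmod_eq_zero_iff_dvd (γ 1 0) M).mp (Gamma_mem.mp h2).2.2.1)
  have b : (q : ℤ) ∣ γ 1 0 := mem_Gamma0_dvd.mp h0
  rw [Gamma0_mem, ZMod.intCast_zmod_eq_zero_iff_dvd]
  push_cast
  exact (Int.isCoprime_iff_nat_coprime.mpr (by
    simpa using hM.coprime_dvd_left hLM)).mul_dvd a b

/-- An automorphism fixing an expansion and the root of unity fixes that of the normalised power. -/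
theorem mapSer_lexp_pow_div_auxW {m : ℕ} (haux : AuxLevel M m) {v : ℍ → ℂ} {c : PowerSeries ℂ}
    (hc : HasExp 1 v c) {σ : ℂ ≃+* ℂ} (hσc : c.map (σ : ℂ →+* ℂ) = c)
    (hσz : σ (zetaC (q * M)) = zetaC (q * M)) :
    mapSer (σ : ℂ →+* ℂ) (lexp (q * M) 1 ((fun τ => v τ / auxW haux τ ^ 2) ^ q)) =
      lexp (q * M) 1 ((fun τ => v τ / auxW haux τ ^ 2) ^ q) := by
  set haux' := auxLevel_level (q := q) haux
  set c' := PowerSeries.expand (q * M) (NeZero.ne (q * M)) c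
  have h := (ES.hasLExp_form_div haux' (f := v) (γ := 1) (j := 2) (c := c') (by
    rw [SlashAction.slash_one]
    exact hasExp_widen (NeZero.ne (q * M)) hc)).pow q
  rw [auxW_level haux] at h
  rw [lexp_eq (s := (HahnSeries.ofPowerSeries ℤ ℂ c' * (auxSer haux' 1 ^ 2)⁻¹) ^ q)
      (h.congr_fun fun τ => by simp), map_pow, map_mul, map_inv₀, map_pow,
    ES.mapSer_ofPowerSeries, PowerSeries.map_expand, hσc, auxSer, ES.mapSer_difLaurent,
    RingEquiv.coe_toRingHom, hσz]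

variable (haux : AuxLevel M 2) (hM : M.Coprime q) (hn : M ∣ q ^ n - 1)

include haux hM hn in
/-- **A Kummer element over the coefficient ring.** -/
theorem exists_formM {L : ℕ} [NeZero L] (hLM : L ∣ M) (x : parGroup (Gamma0 (L * q)) q)
    (hfix : ∀ s : Gal' q, FixK Φ n s →
      conjChar (goodLevel_Gamma0 (L * q)) (conjC Φ s) x = x) :
    ∃ (v : ℍ → ℂ) (c : PowerSeries ℂ) (w : ℍ → ℂ) (Nw f : LRing q M (oRing Φ n)),
      IsTwist (Gamma0 (L * q)) ((2 * 2 : ℕ) : ℤ) (x : Gamma0 (L * q) →* ℂˣ) v ∧ v ≠ 0 ∧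
      HasExp 1 v c ∧ (∀ e, IsAlgebraic ℚ (PowerSeries.coeff e c)) ∧
      (∀ σ : ℂ ≃+* ℂ, conjChar (goodLevel_Gamma0 (L * q)) σ x = x → c.map (σ : ℂ →+* ℂ) = c) ∧
      w ∈ BSub (q * M) ∧ (∀ δ ∈ Gamma 2, act δ w = w) ∧
      (Nw : ℍ → ℂ) = w ∧ (∀ τ, w τ ≠ 0) ∧
      (f : ℍ → ℂ) = (w * fun τ => v τ / auxW haux τ ^ 2) ^ q ∧ (f : ℍ → ℂ) ≠ 0 := by
  have : NeZero q := ⟨hq.out.ne_zero⟩
  obtain ⟨v, c, hv, hv0, hc, halg, hcfix⟩ := Toric.exists_fixed_form x
  set P := CPlace.ofEquiv Φ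
  have hle : lam q M ≤ Gamma0 (L * q) := lam_le_gamma0M hM hLM
  set u : ℍ → ℂ := (fun τ => v τ / auxW haux τ ^ 2) ^ q
  have hu : u ∈ LSub q M := Toric.pow_div_auxW_mem_LSub haux hle x.2.1 hv
  obtain ⟨c0, hc0, hc0P, hint⟩ := exists_const_mul_sepN (P := P) haux hM hu.1
  obtain ⟨k, hk⟩ : ∃ k : ℕ, ‖(q : PadicAlgCl q)‖ ^ k ≤ ‖Φ c0‖ := by
    obtain ⟨k, hk⟩ := exists_pow_lt_of_lt_one (norm_pos_iff.mpr ((map_ne_zero Φ).mpr hc0))
      (CFT.Local.norm_q_lt_one (q := q))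
    exact ⟨k, hk.le⟩
  obtain ⟨hzζ, hz4, -⟩ := zetaC_mem_oRingM Φ hM hn
  have hA := goodRoot_oRingM Φ hM hn
  have hN : sepN q haux ∈ LRing q M (oRing Φ n) :=
    mem_LRing_of_BRing (sepN_mem_BRing haux hA hzζ)
  have hNP : sepN q haux ∈ LRing q M P.ring := LRing_mono (oRing_le Φ n) hN
  set a : ℂ := (q : ℂ) ^ k
  set w : ℍ → ℂ := (fun _ => a) * sepN q haux
  have hN4 : sepN q haux ∈ BSub M := (sepN_mem_BRing haux hA hzζ).1
  have haO : a ∈ oRing Φ n := pow_mem (natCast_mem _ q) k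
  have hwq : w ∈ LRing q M (oRing Φ n) := mul_mem (const_mem_LRing haO) hN
  have hprod : w ^ q * u ∈ LRing q M P.ring := by
    have hb : a / c0 ∈ P.ring := by
      rw [CPlace.mem_ring, CPlace.ofEquiv_abv, map_div₀, norm_div, map_pow, norm_pow, map_natCast,
        div_le_one (norm_pos_iff.mpr ((map_ne_zero Φ).mpr hc0))]
      exact hk
    have e : w ^ q * u = ((fun _ => a / c0) * w ^ (q - 1)) *
        ((fun _ => c0) * sepN q haux * u) := by
      funext τ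
      simp only [w, Pi.mul_apply, Pi.pow_apply]
      rw [show (a * sepN q haux τ) ^ q = (a * sepN q haux τ) ^ (q - 1) * (a * sepN q haux τ) by
        rw [← pow_succ, Nat.sub_add_cancel hq.out.one_le]]
      field_simp
    rw [e]
    exact mul_mem (mul_mem (const_mem_LRing hb) (pow_mem (LRing_mono (oRing_le Φ n) hwq) _))
      ⟨hint, mul_mem (mul_mem ((LSub q M).algebraMap_mem c0) (mem_LSub_of_BSub hN4)) hu⟩
  have hfixu : ∀ (s : Gal' q) (hs : FixK Φ n s),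
      conjKM Φ haux hM hn hs ⟨u, hu.1⟩ = ⟨u, hu.1⟩ := by
    intro s hs
    refine conjK_eq_selfM Φ haux hM hn hs fun i => ?_
    have h1 : mapSer (conjC Φ s : ℂ →+* ℂ) (lexp (q * M) 1 u) = lexp (q * M) 1 u :=
      mapSer_lexp_pow_div_auxW haux hc (hcfix _ (hfix s hs))
        (by rw [conjC_zetaM Φ hM hn hs, pow_one])
    conv_rhs => rw [← h1, ES.coeff_mapSer, RingEquiv.coe_toRingHom, map_conjC]
  have hf : w ^ q * u ∈ LRing q M (oRing Φ n) := by
    refine mem_LRing.mpr ⟨hprod.2, fun γ i => (mem_oRing Φ).mpr ⟨?_, ?_⟩⟩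
    · refine CFT.Local.exists_apply_eq_of_mem _ fun s hs => ?_
      have hs' : FixK Φ n s := (IntermediateField.mem_fixingSubgroup_iff _ s).mp hs
      set wB : BSub (q * M) := ⟨w, hwq.1.1⟩
      set uB : BSub (q * M) := ⟨u, hu.1⟩
      have h1 : conjKM Φ haux hM hn hs' (wB ^ q * uB) = wB ^ q * uB := by
        rw [map_mul, map_pow, conjK_eq_self_of_memM Φ haux hM hn hs' (f := wB) hwq.1,
          hfixu s hs']
      have h2 := lexp_conjKM Φ haux hM hn hs' (wB ^ q * uB) γ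
      rw [h1] at h2
      have h3 := congrArg (fun t : LaurentSeries ℂ => Φ (t.coeff i)) h2
      rw [ES.coeff_mapSer, RingEquiv.coe_toRingHom, map_conjC] at h3
      exact h3.symm
    · have h := hprod.1.2 γ i
      rwa [CPlace.mem_ring, CPlace.ofEquiv_abv] at h
  have hw2 : ∀ δ ∈ Gamma 2, act δ w = w := fun δ hδ => by
    rw [ES.act_mulFun, ES.act_const, act_sepN haux hδ]
  have hw0 : ∀ τ, w τ ≠ 0 := fun τ =>
    mul_ne_zero (pow_ne_zero _ (Nat.cast_ne_zero.mpr hq.out.ne_zero)) (sepN_ne_zero haux τ)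
  refine ⟨v, c, w, ⟨w, hwq⟩, ⟨_, hf⟩, hv, hv0, hc, halg, hcfix, hwq.1.1, hw2, rfl, hw0,
    (mul_pow _ _ _).symm, ?_⟩
  obtain ⟨τ, hτ⟩ := Function.ne_iff.mp hv0
  refine fun h => ?_
  have h' := congrFun h τ
  simp only [u, Pi.mul_apply, Pi.pow_apply, Pi.zero_apply] at h'
  exact mul_ne_zero (pow_ne_zero _ (hw0 τ))
    (pow_ne_zero _ (div_ne_zero hτ (pow_ne_zero _ (ES.auxW_ne_zero haux τ)))) h'

end FermatAgent.BAD.AtP
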