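import Fermat.Agent.BAD.TwoP.Good

/-!
# Roots of unity, the automorphism and good points at level `M`

Every residue other than `0` and `1` is that of a point fixed by the automorphism and good over
all large coefficient rings.
-/

set_option autoImplicit false

open UpperHalfPlane CongruenceSubgroup IsLocalRing
open scoped MatrixGroups

noncomputable section

namespace FermatAgent.BAD.AtP

open FermatAgent.BAD.TwoP
open FermatAgent.ES (BSub BRing act lexp lexp_eq zetaC AuxLevel CPlace GoodRoot GoodPoint GalRel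
  GalGrp mapSer haupt hauptSub vanishOrd padicSubring)
open CFT.Local (unramRoot botF Gal' res Res')

variable {q M : ℕ} [hq : Fact q.Prime] [NeZero M] (Φ : ℂ ≃+* PadicAlgCl q)

omit [NeZero M] in
/-- Exponents `n` with `M ∣ q ^ n - 1`. -/
theorem exists_levelExp (hM : M.Coprime q) :
    ∃ n0 : ℕ, 0 < n0 ∧ 2 ∣ n0 ∧ ∀ n, n0 ∣ n → M ∣ q ^ n - 1 := by
  rcases Nat.eq_zero_or_pos M with rfl | hpos
  · have h := hq.out.one_lt
    simp [Nat.coprime_zero_left] at hM
    omega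
  refine ⟨2 * Nat.totient M, Nat.mul_pos two_pos (Nat.totient_pos.mpr hpos), dvd_mul_right _ _,
    fun n hn => ?_⟩
  refine ((Nat.modEq_iff_dvd' (Nat.one_le_pow _ _ hq.out.pos)).mp
    (Nat.ModEq.pow_totient hM.symm).symm).trans ?_
  exact Nat.pow_sub_one_dvd_pow_sub_one q ((dvd_mul_left _ 2).trans hn)

/-- The coefficient ring contains the roots of unity of level `q M` and `M`. -/
theorem zetaC_mem_oRingM (hM : M.Coprime q) {n : ℕ} [NeZero n] (hn : M ∣ q ^ n - 1) :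
    zetaC (q * M) ∈ oRing Φ n ∧ zetaC M ∈ oRing Φ n ∧
      Φ (zetaC (q * M)) ∈ lField q (zetaP Φ) n := by
  set x := Φ (zetaC (q * M))
  have hx : x ^ (q * M) = 1 := by
    rw [← map_pow, (ES.zetaC_isPrimitiveRoot (q * M)).pow_eq_one, map_one]
  have h4 : x ^ M ∈ lField q (zetaP Φ) n := by
    have : NeZero q := ⟨hq.out.ne_zero⟩
    obtain ⟨i, -, hi⟩ := (zetaP_spec Φ).eq_pow_of_pow_eq_one (ξ := x ^ M)
      (by rw [← pow_mul, mul_comm, hx])
    rw [← hi]
    exact pow_mem (zeta_mem_lField n) i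
  have hqq : x ^ q ∈ lField q (zetaP Φ) n := by
    obtain ⟨r, hr⟩ := hn
    obtain ⟨i, hi⟩ := CFT.Local.exists_pow_eq (botF q) n (ω := x ^ q) (by
      rw [unramOrder_bot, hr, ← pow_mul, ← mul_assoc, pow_mul, hx, one_pow])
    rw [← hi]
    exact pow_mem (unramRoot_mem_lField n) i
  have hxL : x ∈ lField q (zetaP Φ) n := by
    obtain ⟨u, v, huv⟩ := Int.isCoprime_iff_nat_coprime.mpr
      (show Int.natAbs M |>.Coprime (Int.natAbs q) by simpa using hM)
    have hx0 : x ≠ 0 := fun h0 => by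
      rw [h0, zero_pow (NeZero.ne (q * M))] at hx; exact zero_ne_one hx
    rw [← zpow_one x, ← huv, zpow_add₀ hx0, mul_comm u, mul_comm v, zpow_mul, zpow_mul,
      zpow_natCast, zpow_natCast]
    exact mul_mem (zpow_mem h4 u) (zpow_mem hqq v)
  have hn1 : ‖x‖ ≤ 1 := (CFT.Local.norm_eq_one_of_pow_eq_one (NeZero.ne (q * M)) hx).le
  refine ⟨(mem_oRing Φ).mpr ⟨lField_le_kField n hxL, hn1⟩, ?_, hxL⟩
  have e : zetaC M = zetaC (q * M) ^ q := (zetaC_level_pow (q := q) (M := M)).symm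
  rw [e]
  exact pow_mem ((mem_oRing Φ).mpr ⟨lField_le_kField n hxL, hn1⟩) q

/-- The coefficient ring has the good root of unity of level `M`. -/
theorem goodRoot_oRingM (hM : M.Coprime q) {n : ℕ} [NeZero n] (hn : M ∣ q ^ n - 1) :
    GoodRoot M (oRing Φ n) (zetaC M) :=
  (isCDVR_oRing Φ n).goodRoot ((CPlace.ofEquiv Φ).goodRoot hM) (zetaC_mem_oRingM Φ hM hn).2.1

/-- The automorphism gives the conjugation data at level `q M`. -/
theorem exists_tauDataM (hM : M.Coprime q) {n : ℕ} [NeZero n] (hn : M ∣ q ^ n - 1) :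
    ∃ T : TauData q M (CPlace.ofEquiv Φ) (oRing Φ n),
      ∀ z : ℂ, T.D.σ z = conjC Φ (tauP Φ) z := by
  obtain ⟨hsζ, hsR, hsw⟩ := tauP_spec Φ
  have hζ := zetaP_spec Φ
  have hO' := isCDVR_oRing Φ n
  have := hO'.dvr
  obtain ⟨D, hD⟩ := exists_inertData (M := M) (O := oRing Φ n) (conjC Φ (tauP Φ)) (small_tauP Φ)
    (fun z hz => by
      rw [mem_oRing, map_conjC, CFT.Local.norm_apply] at *
      exact ⟨apply_mem_kField hζ hsζ hsR hz.1, hz.2⟩)
  obtain ⟨hz4, -, hzL⟩ := zetaC_mem_oRingM Φ hM hn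
  have ha1 : (D.a : ZMod (q * M)) = 1 := by
    have hfix : D.σ (zetaC (q * M)) = zetaC (q * M) := by
      refine Φ.injective ?_
      rw [hD, map_conjC]
      have : ∀ x ∈ lField q (zetaP Φ) n, tauP Φ x = x := by
        have hle : lField q (zetaP Φ) n ≤
            IntermediateField.fixedField (Subgroup.zpowers (tauP Φ)) := by
          refine sup_le ?_ ?_ <;> rw [IntermediateField.adjoin_simple_le_iff,
            IntermediateField.mem_fixedField_iff] <;> intro f hf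
          · exact (Subgroup.zpowers_le.mpr
              (show tauP Φ ∈ MulAction.stabilizer (Gal' q) (zetaP Φ) from hsζ)) hf
          · exact (Subgroup.zpowers_le.mpr
              (show tauP Φ ∈ MulAction.stabilizer (Gal' q) (unramRoot (botF q) n) from
                hsR _ (unramRoot_mem_primeToRoots n))) hf
        exact fun x hx => (IntermediateField.mem_fixedField_iff _ x).mp (hle hx) _
          (Subgroup.mem_zpowers _)
      exact this _ hzL
    have h1 := D.zeta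
    rw [hfix] at h1
    have hprim := ES.zetaC_isPrimitiveRoot (q * M)
    have hz1 : zetaC (q * M) ≠ 1 := hprim.ne_one
      (hq.out.one_lt.trans_le (Nat.le_mul_of_pos_right q (NeZero.pos M)))
    obtain ⟨b, hb⟩ : ∃ b, D.a = b + 1 := Nat.exists_eq_succ_of_ne_zero fun h0 => hz1 (by
      rw [h0, pow_zero] at h1; exact h1)
    rw [hb, pow_succ, eq_comm, mul_eq_right₀ (hprim.ne_zero (NeZero.ne _)),
      hprim.pow_eq_one_iff_dvd, ← ZMod.natCast_eq_zero_iff] at h1
    rw [hb, Nat.cast_succ, h1, zero_add]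
  set π := piUnif q (zetaP Φ)
  have hπK : π ∈ kField q (zetaP Φ) n := piUnif_mem_kField n
  have hπpos := norm_piUnif_pos hζ
  have hπlt := norm_piUnif_lt_one hζ
  have hπ0 : π ≠ 0 := norm_pos_iff.mp hπpos
  have mk : ∀ x ∈ kField q (zetaP Φ) n, ‖x‖ ≤ 1 → ∃ o : oRing Φ n, Φ o = x := fun x hx h1 =>
    ⟨⟨Φ.symm x, (mem_oRing Φ).mpr (by rw [Φ.apply_symm_apply]; exact ⟨hx, h1⟩)⟩,
      Φ.apply_symm_apply x⟩
  have hnorm : ∀ o : oRing Φ n, IsUnit o ↔ ‖Φ o‖ = 1 := fun o => by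
    rw [hO'.isUnit_iff, CPlace.ofEquiv_abv]
  obtain ⟨πO, hπO⟩ := mk π hπK hπlt.le
  have hdvd : ∀ (k : ℕ) (o : oRing Φ n), ‖Φ o‖ ≤ ‖π‖ ^ k → πO ^ k ∣ o := by
    intro k o ho
    obtain ⟨c, hc⟩ := mk (Φ o / π ^ k) (div_mem ((mem_oRing Φ).mp o.2).1 (pow_mem hπK k))
      (by rw [norm_div, norm_pow, div_le_one (pow_pos hπpos k)]; exact ho)
    refine ⟨c, Subtype.ext (Φ.injective ?_)⟩
    push_cast
    rw [map_mul, map_pow, hπO, hc, mul_div_cancel₀ _ (pow_ne_zero k hπ0)]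
  have hirr : Irreducible πO := by
    refine ⟨fun hu => hπlt.ne (by have h1 := (hnorm _).mp hu; rwa [hπO] at h1), fun a b hab => ?_⟩
    by_contra hne
    rw [not_or] at hne
    have hle : ∀ c : oRing Φ n, ¬ IsUnit c → ‖Φ c‖ ≤ ‖π‖ := fun c hc =>
      norm_le_piUnif hζ n ((mem_oRing Φ).mp c.2).1
        (lt_of_le_of_ne ((mem_oRing Φ).mp c.2).2 fun h => hc ((hnorm c).mpr h))
    have h1 := congrArg (fun o : oRing Φ n => ‖Φ o‖) hab
    simp only [MulMemClass.coe_mul, map_mul, norm_mul, hπO] at h1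
    have h2 := mul_le_mul (hle a hne.1) (hle b hne.2) (norm_nonneg _) hπpos.le
    nlinarith
  obtain ⟨η, hηK, hη1, hslope⟩ := exists_slope hζ hsζ hsR hsw (n := n)
  obtain ⟨ηO, hηO⟩ := mk η hηK hη1.le
  obtain ⟨a, ha⟩ := mk ((q : PadicAlgCl q) / π ^ (q * (q - 1)))
    (div_mem (natCast_mem _ q) (pow_mem hπK _))
    (by rw [norm_div, norm_pow, norm_piUnif_pow hζ, div_self CFT.Local.norm_q_pos.ne'])
  have hau : IsUnit a := (hnorm a).mpr (by
    rw [ha, norm_div, norm_pow, norm_piUnif_pow hζ, div_self CFT.Local.norm_q_pos.ne'])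
  refine ⟨⟨D, πO, ηO, hau.unit, hirr, (hnorm _).mpr (by rw [hηO, hη1]), ha1, ?_, fun r => ?_, ?_⟩,
    fun z => by rw [hD]⟩
  · refine Subtype.ext (Φ.injective ?_)
    rw [IsUnit.unit_spec]
    push_cast
    rw [map_mul, map_pow, hπO, ha, div_mul_cancel₀ _ (pow_ne_zero _ hπ0), map_natCast]
  · refine hdvd 2 _ ?_
    rw [AddSubgroupClass.coe_sub, D.coe_σO, hD, map_sub, map_conjC]
    exact norm_apply_sub_le hζ hsζ hsR hsw ((mem_oRing Φ).mp r.2).1 ((mem_oRing Φ).mp r.2).2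
  · refine Subtype.ext (Φ.injective ?_)
    rw [D.coe_σO, hD, map_conjC]
    push_cast
    rw [map_mul, map_add, map_one, map_mul, hπO, hηO]
    exact hslope

variable {m : ℕ} in
/-- **Values of good points with prescribed residue.** -/
theorem exists_goodVal (hM : M.Coprime q) (haux : AuxLevel M m)
    (hfixRoot : ∀ s : Gal' q, (∀ r ∈ primeToRoots q, s r = r) →
      conjC Φ s (ES.hauptRoot haux) = ES.hauptRoot haux)
    {c : Res' q} (h0 : c ≠ 0) (h1 : c ≠ 1) (hr : c ≠ resP Φ (ES.hauptRoot haux)) :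
    ∃ (τ0 : ℍ) (N : ℕ), 0 < N ∧ resP Φ (haupt haux.dvd τ0) = c ∧
      GoodPoint haux (CPlace.ofEquiv Φ).ring τ0 ∧
      (∀ s : Gal' q, (∀ r ∈ primeToRoots q, s r = r) →
        conjC Φ s (haupt haux.dvd τ0) = haupt haux.dvd τ0) ∧
      ∀ x ∈ ES.fibVals haux τ0, ∀ n, N ∣ n → ∀ [NeZero n],
        Φ x ∈ lField q (zetaP Φ) n ∧ ‖Φ x‖ ≤ 1 := by
  set P := CPlace.ofEquiv Φ
  obtain ⟨d, hd, hc⟩ := exists_exponent_res c
  have : NeZero d := ⟨hd.ne'⟩
  have hc' := hc.resolve_left h0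
  rw [← unramOrder_bot] at hc'
  have : NeZero (CFT.Local.unramOrder (botF q) d) :=
    ⟨(CFT.Local.unramOrder_pos (botF q) d).ne'⟩
  obtain ⟨i, -, hi⟩ := (CFT.Local.res_unramRoot_spec (botF q) d).eq_pow_of_pow_eq_one hc'
  set t := unramRoot (botF q) d ^ i
  have ht : t ∈ primeToRoots q := ⟨d, hd, by
    rw [← pow_mul, mul_comm, pow_mul, ← unramOrder_bot, (CFT.Local.unramRoot_spec _ d).pow_eq_one,
      one_pow]⟩
  have htn : ‖t‖ = 1 := by rw [norm_pow, CFT.Local.norm_unramRoot, one_pow]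
  have hrt : res t = c := by rw [CFT.Local.res_pow (CFT.Local.norm_unramRoot _ d).le, hi]
  set a := Φ.symm t
  have ha : P.abv a = 1 := by rw [CPlace.ofEquiv_abv, Φ.apply_symm_apply, htn]
  have ha1 : P.abv (a - 1) = 1 := by
    refine le_antisymm (P.ring.sub_mem ha.le P.ring.one_mem) (not_lt.mp fun hlt => h1 ?_)
    rw [CPlace.ofEquiv_abv, map_sub, map_one, Φ.apply_symm_apply] at hlt
    rw [← hrt, ← CFT.Local.res_one, CFT.Local.res_eq_res_iff htn.le norm_one.le]
    exact hlt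
  have hroot : ES.hauptRoot haux ∈ P.ring := (ES.hauptRoot_spec haux (P.goodRoot hM)).1
  have ha2 : P.abv (a - ES.hauptRoot haux) = 1 := by
    refine le_antisymm (P.ring.sub_mem ha.le hroot) (not_lt.mp fun hlt => hr ?_)
    rw [CPlace.ofEquiv_abv, map_sub, Φ.apply_symm_apply] at hlt
    rw [CPlace.mem_ring, CPlace.ofEquiv_abv] at hroot
    rw [← hrt, resP, CFT.Local.res_eq_res_iff htn.le hroot]
    exact hlt
  have hval : ES.GoodVal haux P.ring a :=
    ⟨P.unitIn_of_abv_eq_one ha, P.unitIn_of_abv_eq_one ha1, P.unitIn_of_abv_eq_one ha2⟩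
  obtain ⟨τ0, hτ0⟩ := hval.exists_point
  have hgP : GoodPoint haux P.ring τ0 := GoodPoint.of_integrallyClosed haux
    (P.goodRoot hM) (fun x => mem_ring_of_monic_root Φ) (hτ0.symm ▸ hval)
  have hfix : ∀ s : Gal' q, (∀ r ∈ primeToRoots q, s r = r) →
      conjC Φ s (haupt haux.dvd τ0) = haupt haux.dvd τ0 := fun s hs => by
    refine Φ.injective ?_
    rw [map_conjC, hτ0, Φ.apply_symm_apply]
    exact hs t ht
  have hmem : ∀ x ∈ ES.fibVals haux τ0,
      ∃ N, 0 < N ∧ ∀ n, N ∣ n → ∀ [NeZero n], Φ x ∈ lField q (zetaP Φ) n := by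
    intro x hx
    refine exists_mem_lField (CFT.Local.exists_apply_eq_of_mem _ fun s hs => ?_)
    have hs' := (IntermediateField.mem_fixingSubgroup_iff _ s).mp hs
    have hR : ∀ r ∈ primeToRoots q, s r = r := fun r hr =>
      hs' r (IntermediateField.subset_adjoin _ _ (Set.mem_insert_of_mem _ hr))
    have hz : conjC Φ s (zetaC M) = zetaC M ^ 1 := by
      rw [pow_one]
      refine Φ.injective ?_
      rw [map_conjC]
      obtain ⟨n0, hn0, -, hdvd⟩ := exists_levelExp hM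
      refine hR _ ⟨n0, hn0, ?_⟩
      rw [← map_pow]
      obtain ⟨r, hr'⟩ := hdvd n0 dvd_rfl
      rw [hr', pow_mul, (ES.zetaC_isPrimitiveRoot M).pow_eq_one, one_pow, map_one]
    have h := apply_eq_of_mem_fibVals haux hz (P := P) (hfixRoot s hR)
      (fun z hz' => by
        rw [CPlace.ofEquiv_abv] at hz' ⊢
        rw [map_sub, map_conjC]
        exact norm_apply_sub_lt hR hz') hgP (hfix s hR) hx
    rw [← map_conjC, h]
  choose! N hN hNmem using hmem
  have hfin := ES.finite_fibVals haux τ0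
  refine ⟨τ0, ∏ x ∈ hfin.toFinset, N x, Finset.prod_pos fun x hx => hN x (hfin.mem_toFinset.mp hx),
    by rw [resP, hτ0, Φ.apply_symm_apply, hrt], hgP, hfix, fun x hx n hn _ =>
      ⟨hNmem x hx n ((Finset.dvd_prod_of_mem N (hfin.mem_toFinset.mpr hx)).trans hn), ?_⟩⟩
  have := ES.fibVals_subset haux hgP hx
  rwa [SetLike.mem_coe, CPlace.mem_ring, CPlace.ofEquiv_abv] at this

/-- **Good points with prescribed residue.** -/
theorem exists_goodM (hM : M.Coprime q) (haux : AuxLevel M 2) {c : CFT.Local.Res' q} (h0 : c ≠ 0)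
    (h1 : c ≠ 1) :
    ∃ (τ0 : ℍ) (N : ℕ), 0 < N ∧ resP Φ (haupt haux.dvd τ0) = c ∧
      conjC Φ (tauP Φ) (haupt haux.dvd τ0) = haupt haux.dvd τ0 ∧
      ∀ n, N ∣ n → ∀ [NeZero n], GoodPoint haux (oRing Φ n) τ0 := by
  obtain ⟨τ0, N, hN, hres, hgP, hfix, hx⟩ := exists_goodVal Φ hM haux
    (fun s _ => by rw [hauptRoot_two, map_zero]) h0 h1
    (by rwa [hauptRoot_two, resP, map_zero, CFT.Local.res_zero])
  exact ⟨τ0, N, hN, hres, hfix _ (tauP_spec Φ).2.1, fun n hn _ =>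
    ES.goodPoint_of_isCDVR haux (isCDVR_oRing Φ n) hgP fun x h => (mem_oRing Φ).mpr
      ⟨lField_le_kField n (hx x h n hn).1, (hx x h n hn).2⟩⟩

end FermatAgent.BAD.AtP
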